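import Mathlib

/-!
# S41/TOP-DESC (Mathlib only): descent of an eigenvector with eigenvalues in the prime field

`y ≠ 0` in `k ⊗ X` (`k` a field of characteristic `p`, `X` a lattice) with `T i y = a i y`, `a i ∈ ℤ`.
Then there is `x0 ∈ X \ pX` with `T i x0 ≡ a i x0 mod p`.

Proof (coordinates).  `b` a basis of `X`, `c = (b.baseChange k).repr y : J → k`, `c j0 ≠ 0`.
`A i = LinearMap.toMatrix b b (T i)`; `LinearMap.toMatrix_baseChange`, `LinearMap.toMatrix_mulVec_repr`:
`∑ j, (A i l j : k) * c j = a i * c l`.  Choose `λ : k →ₗ[ZMod p] ZMod p` with `λ (c j0) ≠ 0`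
(`Module.forall_dual_apply_eq_zero_iff`), `n j : ℤ` a lift of `λ (c j)`, `x0 = ∑ n j • b j`.
-/

set_option autoImplicit false

open TensorProduct

namespace Fermat.Agent.S41.Top

theorem exists_lattice_eigen {X : Type} [AddCommGroup X] [Module.Free ℤ X] [Module.Finite ℤ X]
    {k : Type} [Field k] {p : ℕ} (hp : p.Prime) [CharP k p] (y : k ⊗[ℤ] X) (hy : y ≠ 0)
    {ι : Type} (T : ι → Module.End ℤ X) (a : ι → ℤ)
    (hT : ∀ i, (T i).baseChange k y = (a i : k) • y) :
    ∃ x0 : X, (¬ ∃ z : X, x0 = (p : ℤ) • z) ∧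
      ∀ i, ∃ z : X, T i x0 - a i • x0 = (p : ℤ) • z := by
  classical
  have : Fact p.Prime := ⟨hp⟩
  let _ : Algebra (ZMod p) k := ZMod.algebra k p
  set b := Module.Free.chooseBasis ℤ X with hb
  set bk := Algebra.TensorProduct.basis k b with hbk
  set c := bk.repr y with hc
  have hc0 : ∃ j0, c j0 ≠ 0 := by
    by_contra h
    push Not at h
    apply hy
    have : c = 0 := by
      ext j; exact h j
    exact (LinearEquiv.map_eq_zero_iff bk.repr).1 this
  obtain ⟨j0, hj0⟩ := hc0
  obtain ⟨lam, hlam⟩ : ∃ lam : Module.Dual (ZMod p) k, lam (c j0) ≠ 0 := by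
    by_contra h
    push Not at h
    exact hj0 ((Module.forall_dual_apply_eq_zero_iff (ZMod p) (c j0)).1 h)
  set A : ι → Matrix _ _ ℤ := fun i => LinearMap.toMatrix b b (T i) with hA
  have key : ∀ i l, ∑ j, ((A i l j : ℤ) : k) * c j = (a i : k) * c l := by
    intro i l
    have h1 := LinearMap.toMatrix_mulVec_repr bk bk ((T i).baseChange k) y
    rw [hT i, hbk, LinearMap.toMatrix_baseChange] at h1
    have h2 := congrFun h1 l
    simp only [Matrix.mulVec, dotProduct, Matrix.map_apply, map_smul, Finsupp.smul_apply,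
      smul_eq_mul, algebraMap_int_eq, eq_intCast] at h2
    exact h2
  have key2 : ∀ i l, ∑ j, ((A i l j : ℤ) : ZMod p) * lam (c j) = (a i : ZMod p) * lam (c l) := by
    intro i l
    have h := congrArg lam (key i l)
    rw [map_sum] at h
    have e : ∀ (m : ℤ) (x : k), lam ((m : k) * x) = (m : ZMod p) * lam x := by
      intro m x
      rw [← zsmul_eq_mul, map_zsmul, zsmul_eq_mul]
    simp only [e] at h
    exact h
  set n : _ → ℤ := fun j => ((lam (c j)).val : ℤ) with hn
  have hncast : ∀ j, ((n j : ℤ) : ZMod p) = lam (c j) := by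
    intro j
    simp [hn]
  refine ⟨∑ j, n j • b j, ?_, ?_⟩
  · rintro ⟨z, hz⟩
    have h := congrArg (fun x => b.repr x j0) hz
    simp only [map_sum, map_smul, Module.Basis.repr_self, Finsupp.smul_apply, smul_eq_mul,
      Finsupp.coe_finsetSum, Finset.sum_apply, Finsupp.smul_single, mul_one,
      Finsupp.single_apply, Finset.sum_ite_eq', Finset.mem_univ, if_true] at h
    apply hlam
    rw [← hncast j0, h]
    simp
  · intro i
    have hdiv : ∀ l, ∃ m : ℤ, ∑ j, A i l j * n j - a i * n l = (p : ℤ) * m := by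
      intro l
      have : (((∑ j, A i l j * n j - a i * n l : ℤ)) : ZMod p) = 0 := by
        push_cast
        simp only [hncast]
        rw [key2 i l, sub_self]
      exact (ZMod.intCast_zmod_eq_zero_iff_dvd _ p).1 this
    choose m hm using hdiv
    refine ⟨∑ l, m l • b l, ?_⟩
    apply b.ext_elem
    intro l
    have h1 := LinearMap.toMatrix_mulVec_repr b b (T i) (∑ j, n j • b j)
    have h2 := congrFun h1 l
    have hrepr : ∀ (f : _ → ℤ) (l), b.repr (∑ j, f j • b j) l = f l := by
      intro f l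
      simp only [map_sum, map_smul, Module.Basis.repr_self, Finsupp.smul_apply, smul_eq_mul,
        Finsupp.coe_finsetSum, Finset.sum_apply, Finsupp.smul_single, mul_one,
        Finsupp.single_apply, Finset.sum_ite_eq', Finset.mem_univ, if_true]
    simp only [map_sub, map_smul, Finsupp.sub_apply, Finsupp.smul_apply, smul_eq_mul]
    rw [← h2, hrepr, hrepr]
    simp only [Matrix.mulVec, dotProduct, hrepr]
    exact hm l

end Fermat.Agent.S41.Top
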