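import Fermat.Agent.S41.Defs
import Fermat.Agent.S41.Top.Desc
import Fermat.Agent.S29.Eig

/-!
# S41/TOP-IN : from the eigenform `f` to a lattice vector `x0 ∈ XN N \ p XN N`
-/

set_option autoImplicit false

open UpperHalfPlane ModularForm ModularFormClass ModularCurve CongruenceSubgroup TensorProduct
open ModularCurve.Period Fermat.Agent.S16.Lower Fermat.Agent.S29 Fermat.Agent.S29.HeckeXAux
open scoped MatrixGroups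

noncomputable section

namespace Fermat.Agent.S41.Top

/-- Proof: `S29.exists_eigen_XN` (with `S29.heckeTLin_eq_smul`), `S29.isIntegral_of_eigenvalue`,
`S29.exists_eigenvector_mod` with `ι = {ℓ // ℓ.Prime ∧ ¬ ℓ ∣ N}`, `k = ℤ̄ ⧸ 𝔪`, `φ = Ideal.Quotient.mk 𝔪`,
then `exists_lattice_eigen` with `ι = {ℓ // ℓ.Prime ∧ ¬ ℓ ∣ N ∧ ℓ ∈ S}`. -/
theorem top_in {N p : ℕ} [NeZero N] (hp : p.Prime)
    (f : CuspForm (Gamma0 N) 2) (hf : f.IsNormalizedEigenform)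
    (𝔪 : Ideal (integralClosure ℤ ℂ)) (hmax : 𝔪.IsMaximal) (hpm : (p : integralClosure ℤ ℂ) ∈ 𝔪)
    (S : Set ℕ) (a : ℕ → ℤ)
    (hS : ∀ ℓ ∈ S, ∃ α : integralClosure ℤ ℂ, (α : ℂ) = qCoeff f ℓ ∧
      α - ((a ℓ : ℤ) : integralClosure ℤ ℂ) ∈ 𝔪) :
    ∃ x0 : XN N, ¬ DivP p x0 ∧ ∀ (ℓ : ℕ) (hℓ : ℓ.Prime) (hN : ¬ ℓ ∣ N), ℓ ∈ S →
      DivP p (heckeX N hℓ hN x0 - a ℓ • x0) := by
  classical
  have hf0 : f ≠ 0 := ne_zero_of_isNormalizedEigenform hf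
  obtain ⟨x, hx0, hx⟩ := exists_eigen_XN N f hf0
    (fun ℓ => qCoeff f ℓ) (fun ℓ hℓ hN => heckeTLin_eq_smul hf hℓ hN)
  have hint : ∀ ℓ : ℕ, ℓ.Prime → ¬ ℓ ∣ N → IsIntegral ℤ (qCoeff f ℓ) := fun ℓ hℓ hN =>
    isIntegral_of_eigenvalue (heckeX N hℓ hN) _ x hx0 (hx ℓ hℓ hN)
  let b : ℕ → integralClosure ℤ ℂ := fun ℓ =>
    if h : IsIntegral ℤ (qCoeff f ℓ) then ⟨qCoeff f ℓ, h⟩ else 0
  have hb : ∀ ℓ : ℕ, ℓ.Prime → ¬ ℓ ∣ N → (b ℓ : ℂ) = qCoeff f ℓ := fun ℓ hℓ hN => by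
    simp only [b, dif_pos (hint ℓ hℓ hN)]
  let _ : Field (integralClosure ℤ ℂ ⧸ 𝔪) := Ideal.Quotient.field 𝔪
  have hchar : CharP (integralClosure ℤ ℂ ⧸ 𝔪) p := by
    have h0 : ((p : ℕ) : integralClosure ℤ ℂ ⧸ 𝔪) = 0 := by
      have := (Ideal.Quotient.eq_zero_iff_mem (I := 𝔪)).2 hpm
      simpa using this
    have h1 : ringChar (integralClosure ℤ ℂ ⧸ 𝔪) ∣ p := ringChar.dvd h0
    have h2 : ringChar (integralClosure ℤ ℂ ⧸ 𝔪) = p :=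
      ((Nat.dvd_prime hp).1 h1).resolve_left CharP.ringChar_ne_one
    exact ringChar.of_eq h2
  obtain ⟨y, hy0, hy⟩ := exists_eigenvector_mod
    (ι := {ℓ : ℕ // ℓ.Prime ∧ ¬ ℓ ∣ N}) (fun i => heckeX N i.2.1 i.2.2)
    (fun i j => heckeX_commute N i.2.1 i.2.2 j.2.1 j.2.2) (fun i => b i.1) x hx0
    (fun i => by rw [hb i.1 i.2.1 i.2.2]; exact hx i.1 i.2.1 i.2.2) (Ideal.Quotient.mk 𝔪)
  obtain ⟨x0, h1, h2⟩ := exists_lattice_eigen hp y hy0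
    (ι := {ℓ : ℕ // ℓ.Prime ∧ ¬ ℓ ∣ N ∧ ℓ ∈ S}) (fun i => heckeX N i.2.1 i.2.2.1)
    (fun i => a i.1) (fun i => by
      rw [hy ⟨i.1, i.2.1, i.2.2.1⟩]
      congr 1
      obtain ⟨α, hα1, hα2⟩ := hS i.1 i.2.2.2
      have e : b i.1 = α := Subtype.ext ((hb i.1 i.2.1 i.2.2.1).trans hα1.symm)
      show Ideal.Quotient.mk 𝔪 (b i.1) = _
      rw [e]
      have := (Ideal.Quotient.eq (I := 𝔪)).2 hα2
      rw [this]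
      simp)
  exact ⟨x0, h1, fun ℓ hℓ hN hℓS => h2 ⟨ℓ, hℓ, hN, hℓS⟩⟩

end Fermat.Agent.S41.Top
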