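import Fermat.Agent.S49.Abstract

/-!
# S41/TOP-GOOD : the lifting lemma of S49 inside a stable subspace
-/

set_option autoImplicit false

namespace Fermat.Agent.S41.Top

open Module

/-- Proof: apply `S49.exists_common_eigenvector` to `V' = ↥W₀` and the restricted representation
`ρ' t = (ρ t).restrict _`. -/
theorem exists_common_eigenvector_mem {K V A : Type*} [Field K] [AddCommGroup V] [Module K V]
    [FiniteDimensional K V] [CommRing A] [IsAlgClosed K] {O : Type*} [CommRing O] (j : O →+* K)
    (ρ : A →+* Module.End K V) (ι : O →+* A)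
    (hι : ∀ c : O, ρ (ι c) = (j c) • (1 : Module.End K V))
    (M : Ideal A) [M.IsPrime] (W₀ : Submodule K V)
    (hst : ∀ t : A, ∀ w ∈ W₀, ρ t w ∈ W₀)
    (hker : ∀ t : A, (∀ w ∈ W₀, ρ t w = 0) → t ∈ M) :
    ∃ g ∈ W₀, g ≠ 0 ∧ ∀ t : A, (∀ μ : K, (ρ t).HasEigenvalue μ → ∃ c : O, j c = μ) →
      ∃ μ : O, ρ t g = (j μ) • g ∧ t - ι μ ∈ M := by
  let ρ' : A →+* Module.End K W₀ :=
    { toFun := fun t => (ρ t).restrict (hst t)
      map_one' := by
        ext w
        simp [LinearMap.restrict_apply]
      map_mul' := fun a b => by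
        ext w
        simp [LinearMap.restrict_apply]
      map_zero' := by
        ext w
        simp [LinearMap.restrict_apply]
      map_add' := fun a b => by
        ext w
        simp [LinearMap.restrict_apply] }
  have hρ' : ∀ (t : A) (w : W₀), ((ρ' t w : W₀) : V) = ρ t (w : V) := fun t w => rfl
  obtain ⟨g, hg0, hg⟩ := Fermat.Agent.S49.exists_common_eigenvector j ρ' ι
    (fun c => by
      ext w
      rw [hρ', hι]
      simp) M
    (fun t ht => hker t fun w hw => by
      have := congrArg (fun φ : Module.End K W₀ => ((φ ⟨w, hw⟩ : W₀) : V)) ht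
      simpa [hρ'] using this)
  refine ⟨g, g.2, fun h => hg0 (Subtype.ext h), fun t ht => ?_⟩
  obtain ⟨μ, h1, h2⟩ := hg t (fun μ hμ => by
    apply ht
    obtain ⟨v, hv⟩ := hμ.exists_hasEigenvector
    refine Module.End.hasEigenvalue_of_hasEigenvector (x := (v : V)) ⟨?_, ?_⟩
    · rw [Module.End.mem_eigenspace_iff]
      have := congrArg (Subtype.val) (Module.End.mem_eigenspace_iff.mp hv.1)
      rw [hρ'] at this
      simpa using this
    · intro h
      exact hv.2 (Subtype.ext h))
  refine ⟨μ, ?_, h2⟩
  have := congrArg (Subtype.val) h1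
  rw [hρ'] at this
  simpa using this

end Fermat.Agent.S41.Top
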