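import Fermat.Agent.S41.Defs
import Fermat.Agent.S29.Eig

/-!
# S41/TOP-INT : eigenvalues of the Hecke operators on `S₂(Γ₀(N))` are algebraic integers
-/

set_option autoImplicit false

open UpperHalfPlane ModularForm ModularFormClass ModularCurve CongruenceSubgroup TensorProduct
open ModularCurve.Period Fermat.Agent.S16.Lower Fermat.Agent.S29 Fermat.Agent.S29.HeckeXAux
open scoped MatrixGroups

noncomputable section

namespace Fermat.Agent.S41.Top

/-- a nonzero cusp form gives a nonzero vector of `ℂ ⊗ XN N` -/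
theorem intAux_exists_Phi (N : ℕ) [NeZero N] (g : CuspForm (Gamma0 N) 2) (hg : g ≠ 0) :
    ∃ x : ℂ ⊗[ℤ] (XN N), x ≠ 0 ∧ Phi N x = periodHomPair N (g, 0) := by
  obtain ⟨x, hx⟩ := exists_Phi_eq N (periodHomPair_mem N (g, 0))
  refine ⟨x, ?_, hx⟩
  rintro rfl
  rw [map_zero] at hx
  have := (Fermat.Agent.S21.result N).1 (hx.symm.trans (map_zero (periodHomPair N)).symm)
  exact hg (congrArg Prod.fst this)

/-- Proof: as in `S29.exists_eigen_XN`: `x` with `Phi N x = periodHomPair N (f, 0)`, `x ≠ 0`,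
`Phi_heckeX`, `Phi_injective`, then `S29.isIntegral_of_eigenvalue`. -/
theorem isIntegral_eigenvalue_T {N : ℕ} [NeZero N] {ℓ : ℕ} (hℓ : ℓ.Prime) (hN : ¬ ℓ ∣ N) {μ : ℂ}
    (hμ : Module.End.HasEigenvalue
      (CuspForm.heckeTLin 2 hℓ hN : Module.End ℂ (CuspForm (Gamma0 N) 2)) μ) :
    IsIntegral ℤ μ := by
  obtain ⟨g, hg⟩ := hμ.exists_hasEigenvector
  have hT : CuspForm.heckeTLin 2 hℓ hN g = μ • g := Module.End.mem_eigenspace_iff.mp hg.1
  obtain ⟨x, hx0, hx⟩ := intAux_exists_Phi N g hg.2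
  refine isIntegral_of_eigenvalue (heckeX N hℓ hN) μ x hx0 ?_
  apply Phi_injective N
  rw [Phi_heckeX hℓ hN x g 0 hx, map_smul, hx, hT, map_zero, ← map_smul]
  congr 1
  simp

theorem intAux_Phi_baseChange_U {N : ℕ} [NeZero N] {ℓ : ℕ} (hℓ : ℓ.Prime) (hN : ℓ ∣ N)
    (x : ℂ ⊗[ℤ] (XN N)) (γ : Gamma0 N) (D : HData N (matUF ℓ) γ) :
    Phi N ((heckeXU N hℓ hN).baseChange ℂ x) (Additive.ofMul γ) =
      ∑ i, Phi N x (Additive.ofMul (D.δ i)) := by
  induction x using TensorProduct.induction_on with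
  | zero => simp
  | tmul z c =>
    rw [LinearMap.baseChange_tmul, Phi_tmul]
    simp only [Phi_tmul]
    show z * ((heckeXU N hℓ hN c : Additive (Gamma0 N) →+ ℤ) (Additive.ofMul γ) : ℂ) =
      ∑ i, z * (((c : Additive (Gamma0 N) →+ ℤ) (Additive.ofMul (D.δ i)) : ℤ) : ℂ)
    rw [isTransfer_heckeXU N hℓ hN c γ D, ← Finset.mul_sum]
    push_cast
    rfl
  | add x y hx hy =>
    simp only [map_add, AddMonoidHom.add_apply, hx, hy, Finset.sum_add_distrib]

theorem intAux_Phi_heckeXU {N : ℕ} [NeZero N] {ℓ : ℕ} (hℓ : ℓ.Prime) (hN : ℓ ∣ N)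
    (x : ℂ ⊗[ℤ] (XN N)) (f g : CuspForm (Gamma0 N) 2) (h : Phi N x = periodHomPair N (f, g)) :
    Phi N ((heckeXU N hℓ hN).baseChange ℂ x) =
      periodHomPair N (CuspForm.heckeULin 2 hN f, CuspForm.heckeULin 2 hN g) := by
  refine AddMonoidHom.ext fun γ => ?_
  have h1 := intAux_Phi_baseChange_U hℓ hN x (Additive.toMul γ) (hdU hℓ hN _)
  have h2 := periodHomPair_heckeULin hℓ hN f g (Additive.toMul γ) (hdU hℓ hN _)
  rw [← h] at h2
  exact h1.trans h2.symm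

/-- Proof: same with `heckeXU`; copy `Phi_baseChange`, `Phi_heckeX` of S29/HeckeX.lean for
`heckeXU` (`isTransfer_heckeXU`, `periodHomPair_heckeULin`, `hdU`). -/
theorem isIntegral_eigenvalue_U {N : ℕ} [NeZero N] {ℓ : ℕ} (hℓ : ℓ.Prime) (hN : ℓ ∣ N) {μ : ℂ}
    (hμ : Module.End.HasEigenvalue
      (CuspForm.heckeULin 2 hN : Module.End ℂ (CuspForm (Gamma0 N) 2)) μ) :
    IsIntegral ℤ μ := by
  obtain ⟨g, hg⟩ := hμ.exists_hasEigenvector
  have hT : CuspForm.heckeULin 2 hN g = μ • g := Module.End.mem_eigenspace_iff.mp hg.1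
  obtain ⟨x, hx0, hx⟩ := intAux_exists_Phi N g hg.2
  refine isIntegral_of_eigenvalue (heckeXU N hℓ hN) μ x hx0 ?_
  apply Phi_injective N
  rw [intAux_Phi_heckeXU hℓ hN x g 0 hx, map_smul, hx, hT, map_zero, ← map_smul]
  congr 1
  simp

end Fermat.Agent.S41.Top
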