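import Fermat.Agent.S41.Top.Vals
import Fermat.Agent.S41.Top.Good
import Fermat.Agent.S41.Top.Integral
import Fermat.Agent.S49.Normalize
import Fermat.Prelude.Def_FreyPackage_LevelRaising

/-!
# S41/TOP-OUT : from a lattice vector `y ∈ XN M \ p XN M`, `U_q² y = y`, to an eigenform new at `q`
-/

set_option autoImplicit false

open UpperHalfPlane ModularForm ModularFormClass ModularCurve CongruenceSubgroup
open ModularCurve.Period Fermat.Agent.S16.Lower Fermat.Agent.S29 Fermat.Agent.S29.HeckeXAux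
open Fermat.Agent.S49
open scoped MatrixGroups

noncomputable section

namespace Fermat.Agent.S41.Top

/-- a lattice vector all of whose values are divisible by `p` is divisible by `p` -/
theorem divP_of_forall_dvd {M p : ℕ} (hp : p ≠ 0) (y : XN M)
    (h : ∀ γ : Additive (Gamma0 M), (p : ℤ) ∣ (y : Additive (Gamma0 M) →+ ℤ) γ) : DivP p y := by
  have hp' : (p : ℤ) ≠ 0 := by exact_mod_cast hp
  choose z hz using h
  have hadd : ∀ γ γ', z (γ + γ') = z γ + z γ' := by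
    intro γ γ'
    apply mul_left_cancel₀ hp'
    rw [mul_add, ← hz, ← hz, ← hz, map_add]
  let Z : Additive (Gamma0 M) →+ ℤ := AddMonoidHom.mk' z hadd
  have hZ : Z ∈ XN M := by
    intro γ hγ
    have h1 := hz (Additive.ofMul γ)
    rw [y.2 γ hγ] at h1
    show z (Additive.ofMul γ) = 0
    rcases mul_eq_zero.mp h1.symm with h2 | h2
    · exact absurd h2 hp'
    · exact h2
  refine ⟨⟨Z, hZ⟩, Subtype.ext (AddMonoidHom.ext fun γ => ?_)⟩
  show _ = (p : ℤ) • z γ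
  rw [hz γ, smul_eq_mul]

theorem intCast_mem_iff {p : ℕ} (hp : p.Prime) {𝔪 : Ideal (integralClosure ℤ ℂ)}
    (hmax : 𝔪.IsMaximal) (hpm : (p : integralClosure ℤ ℂ) ∈ 𝔪) (z : ℤ) :
    (z : integralClosure ℤ ℂ) ∈ 𝔪 ↔ (p : ℤ) ∣ z := by
  constructor
  · intro hz
    by_contra hcon
    have hcop : IsCoprime (p : ℤ) z :=
      (Prime.coprime_iff_not_dvd (Nat.prime_iff_prime_int.mp hp)).mpr hcon
    obtain ⟨u, v, huv⟩ := hcop
    apply hmax.ne_top
    rw [Ideal.eq_top_iff_one]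
    have h1 : (1 : integralClosure ℤ ℂ) = (u : integralClosure ℤ ℂ) * (p : integralClosure ℤ ℂ) +
        (v : integralClosure ℤ ℂ) * (z : integralClosure ℤ ℂ) := by
      have := congrArg (Int.cast : ℤ → integralClosure ℤ ℂ) huv
      push_cast at this
      exact this.symm
    rw [h1]
    exact 𝔪.add_mem (𝔪.mul_mem_left _ hpm) (𝔪.mul_mem_left _ hz)
  · rintro ⟨w, rfl⟩
    push_cast
    exact 𝔪.mul_mem_right _ hpm

theorem top_out {M p q : ℕ} [NeZero M] (hp : p.Prime) (hq : q.Prime) (hqM : q ∣ M)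
    (𝔪 : Ideal (integralClosure ℤ ℂ)) (hmax : 𝔪.IsMaximal) (hpm : (p : integralClosure ℤ ℂ) ∈ 𝔪)
    (y : XN M) (hy : ¬ DivP p y) (hU : heckeXU M hq hqM (heckeXU M hq hqM y) = y)
    (S : Set ℕ) (a : ℕ → ℤ)
    (hS : ∀ (ℓ : ℕ) (hℓ : ℓ.Prime) (hN : ¬ ℓ ∣ M), ℓ ∈ S → DivP p (heckeX M hℓ hN y - a ℓ • y)) :
    ∃ g : CuspForm (Gamma0 M) 2, g.IsNormalizedEigenform ∧
      (∀ ℓ : ℕ, ℓ.Prime → ¬ ℓ ∣ M → ℓ ∈ S → ∃ α : integralClosure ℤ ℂ, (α : ℂ) = qCoeff g ℓ ∧
          α - ((a ℓ : ℤ) : integralClosure ℤ ℂ) ∈ 𝔪) ∧ g.IsNewAt q := by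
  classical
  have := Fermat.Agent.S21.finiteDimensional_cuspForm M
  obtain ⟨f₀, g₀, h₀⟩ := exists_pair (castC_mem y.2)
  set U : Module.End ℂ (CuspForm (Gamma0 M) 2) := CuspForm.heckeULin 2 hqM with hUdef
  have hUU : periodHomPair M (U (U f₀), U (U g₀)) = periodHomPair M (f₀, g₀) := by
    rw [castC_heckeXU hq hqM _ _ _ (castC_heckeXU hq hqM y f₀ g₀ h₀), hU, h₀]
  have hinj := (Fermat.Agent.S21.result M).1 hUU
  have hf₀ : U (U f₀) = f₀ := congrArg Prod.fst hinj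
  have hg₀ : U (U g₀) = g₀ := congrArg Prod.snd hinj
  have hint := intCast_mem_iff hp hmax hpm
  set J := valsIdeal 𝔪 (f₀, g₀) with hJ
  have hJne : J ≠ ⊤ := by
    intro htop
    have h1 : (1 : bigHecke M) ∈ J := by rw [htop]; exact Submodule.mem_top
    rw [hJ, mem_valsIdeal] at h1
    have h2 : ValsIn 𝔪 (castC M (y : Additive (Gamma0 M) →+ ℤ)) := by rw [← h₀]; exact h1
    apply hy
    apply divP_of_forall_dvd hp.ne_zero
    intro γ
    obtain ⟨c, hc, hc'⟩ := h2 γ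
    rw [← hint]
    have : c = (((y : Additive (Gamma0 M) →+ ℤ) γ : ℤ) : integralClosure ℤ ℂ) := by
      apply Subtype.ext
      rw [hc', castC_apply]
      simp
    rwa [← this]
  obtain ⟨Mx, hMmax, hJM⟩ := Ideal.exists_le_maximal J hJne
  have hMprime : Mx.IsPrime := hMmax.isPrime
  have hcomap : 𝔪 = Mx.comap (algebraMap (integralClosure ℤ ℂ) (bigHecke M)) := by
    apply hmax.eq_of_le (Ideal.comap_ne_top _ hMprime.ne_top)
    intro c hc
    apply hJM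
    rw [hJ, mem_valsIdeal]
    have h1 : pp ((algebraMap (integralClosure ℤ ℂ) (bigHecke M) c : bigHecke M) :
        Module.End ℂ (CuspForm (Gamma0 M) 2)) (f₀, g₀) =
        (c : ℂ) • castC M (y : Additive (Gamma0 M) →+ ℤ) := by
      rw [← h₀, ← map_smul]
      rfl
    rw [h1]
    intro γ
    refine ⟨c * (((y : Additive (Gamma0 M) →+ ℤ) γ : ℤ) : integralClosure ℤ ℂ),
      𝔪.mul_mem_right _ hc, ?_⟩
    show _ = (c : ℂ) * castC M (y : Additive (Gamma0 M) →+ ℤ) γ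
    rw [castC_apply]
    simp
  have hUmem : U ∈ bigHecke M :=
    Algebra.subset_adjoin (CuspForm.heckeULin_mem_heckeGenerators hq hqM (Set.notMem_empty _))
  set W₀ : Submodule ℂ (CuspForm (Gamma0 M) 2) := LinearMap.ker (U * U - 1) with hW₀
  have hmemW : ∀ w, w ∈ W₀ ↔ U (U w) = w := by
    intro w
    rw [hW₀, LinearMap.mem_ker, LinearMap.sub_apply, Module.End.mul_apply, Module.End.one_apply,
      sub_eq_zero]
  have hcommU : ∀ (t : bigHecke M) (w : CuspForm (Gamma0 M) 2),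
      U ((t : Module.End ℂ (CuspForm (Gamma0 M) 2)) w) =
        (t : Module.End ℂ (CuspForm (Gamma0 M) 2)) (U w) := by
    intro t w
    have h1 := congrArg Subtype.val (mul_comm (⟨U, hUmem⟩ : bigHecke M) t)
    exact LinearMap.congr_fun h1 w
  obtain ⟨g, hgW, hg0, hg⟩ := exists_common_eigenvector_mem (K := ℂ)
    (V := CuspForm (Gamma0 M) 2)
    (A := bigHecke M) (algebraMap (integralClosure ℤ ℂ) ℂ) (bigHecke M).val.toRingHom
    (algebraMap (integralClosure ℤ ℂ) (bigHecke M)) (fun c => rfl) Mx W₀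
    (fun t w hw => by
      rw [hmemW] at hw ⊢
      show U (U ((t : Module.End ℂ (CuspForm (Gamma0 M) 2)) w)) =
        (t : Module.End ℂ (CuspForm (Gamma0 M) 2)) w
      rw [hcommU, hcommU, hw])
    (fun t ht => by
      apply hJM
      rw [hJ, mem_valsIdeal]
      have h1 : (t : Module.End ℂ (CuspForm (Gamma0 M) 2)) f₀ = 0 := ht f₀ ((hmemW _).2 hf₀)
      have h2 : (t : Module.End ℂ (CuspForm (Gamma0 M) 2)) g₀ = 0 := ht g₀ ((hmemW _).2 hg₀)
      have h3 : pp (t : Module.End ℂ (CuspForm (Gamma0 M) 2)) (f₀, g₀) = 0 := by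
        show periodHomPair M (_, _) = 0
        rw [h1, h2]
        exact map_zero (periodHomPair M)
      rw [h3]
      exact ValsIn.zero 𝔪)
  have key : ∀ ℓ : ℕ, ∃ μ : integralClosure ℤ ℂ, ℓ.Prime →
      (∀ (hℓ : ℓ.Prime) (hℓN : ¬ ℓ ∣ M), CuspForm.heckeTLin 2 hℓ hℓN g = (μ : ℂ) • g ∧
        (ℓ ∈ S → μ - ((a ℓ : ℤ) : integralClosure ℤ ℂ) ∈ 𝔪)) ∧
      (∀ hℓN : ℓ ∣ M, CuspForm.heckeULin 2 hℓN g = (μ : ℂ) • g) := by
    intro ℓ
    by_cases hℓ : ℓ.Prime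
    · by_cases hℓN : ℓ ∣ M
      · have hmem : CuspForm.heckeULin 2 hℓN ∈ bigHecke M :=
          Algebra.subset_adjoin (CuspForm.heckeULin_mem_heckeGenerators hℓ hℓN (Set.notMem_empty _))
        obtain ⟨μ, hμ, -⟩ := hg ⟨_, hmem⟩ (fun ν hν =>
          ⟨⟨ν, isIntegral_eigenvalue_U hℓ hℓN hν⟩, rfl⟩)
        exact ⟨μ, fun _ => ⟨fun _ hℓN' => absurd hℓN hℓN', fun _ => hμ⟩⟩
      · have hmem : CuspForm.heckeTLin 2 hℓ hℓN ∈ bigHecke M :=
          Algebra.subset_adjoin (CuspForm.heckeTLin_mem_heckeGenerators hℓ hℓN (Set.notMem_empty _))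
        obtain ⟨μ, hμ, hμM⟩ := hg ⟨_, hmem⟩ (fun ν hν =>
          ⟨⟨ν, isIntegral_eigenvalue_T hℓ hℓN hν⟩, rfl⟩)
        refine ⟨μ, fun _ => ⟨fun _ _ => ⟨hμ, fun hℓS => ?_⟩, fun hℓN' => absurd hℓN' hℓN⟩⟩
        -- the congruence
        have hTJ : (⟨_, hmem⟩ : bigHecke M) -
            algebraMap (integralClosure ℤ ℂ) (bigHecke M) ((a ℓ : ℤ) : integralClosure ℤ ℂ) ∈ J := by
          rw [hJ, mem_valsIdeal]
          obtain ⟨z, hz⟩ := hS ℓ hℓ hℓN hℓS
          have h1 : pp (((⟨_, hmem⟩ : bigHecke M) -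
              algebraMap (integralClosure ℤ ℂ) (bigHecke M) ((a ℓ : ℤ) : integralClosure ℤ ℂ) :
              bigHecke M) : Module.End ℂ (CuspForm (Gamma0 M) 2)) (f₀, g₀) =
              castC M (((p : ℤ) • z : XN M) : Additive (Gamma0 M) →+ ℤ) := by
            rw [← hz]
            have h2 := castC_heckeX hℓ hℓN y f₀ g₀ h₀
            have h3 : castC M ((heckeX M hℓ hℓN y - a ℓ • y : XN M) : Additive (Gamma0 M) →+ ℤ) =
                castC M (heckeX M hℓ hℓN y : Additive (Gamma0 M) →+ ℤ) -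
                  ((a ℓ : ℤ) : ℂ) • castC M (y : Additive (Gamma0 M) →+ ℤ) := by
              refine AddMonoidHom.ext fun γ => ?_
              simp [castC_apply]
            rw [h3, ← h2, ← h₀, ← map_smul, ← map_sub]
            congr 1
          rw [h1]
          intro γ
          refine ⟨(((p : ℤ) * (z : Additive (Gamma0 M) →+ ℤ) γ : ℤ) : integralClosure ℤ ℂ),
            (hint _).2 (dvd_mul_right _ _), ?_⟩
          rw [castC_apply]
          simp
        have h2 := Mx.sub_mem (hJM hTJ) hμM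
        rw [sub_sub_sub_cancel_left, ← map_sub] at h2
        rw [hcomap]
        exact h2
    · exact ⟨0, fun h => absurd h hℓ⟩
  choose μ hμ using key
  obtain ⟨f, hf, hfμ⟩ := exists_normalizedEigenform_of_eigenvector g hg0 (fun ℓ => (μ ℓ : ℂ))
    (fun ℓ hℓ hℓN => ((hμ ℓ hℓ).1 hℓ hℓN).1) (fun ℓ hℓ hℓN => (hμ ℓ hℓ).2 hℓN)
  refine ⟨f, hf, fun ℓ hℓ hℓN hℓS => ⟨μ ℓ, (hfμ ℓ hℓ).symm, ((hμ ℓ hℓ).1 hℓ hℓN).2 hℓS⟩, ?_⟩
  show qCoeff f q ^ 2 = 1
  rw [hfμ q hq]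
  have h1 : U g = (μ q : ℂ) • g := (hμ q hq).2 hqM
  have h2 : U (U g) = g := (hmemW g).1 hgW
  rw [h1, map_smul, h1, smul_smul] at h2
  have h3 : ((μ q : ℂ) * (μ q : ℂ) - 1) • g = 0 := by rw [sub_smul, h2, one_smul, sub_self]
  have h4 := (smul_eq_zero.mp h3).resolve_right hg0
  rw [sq]
  exact sub_eq_zero.mp h4

end Fermat.Agent.S41.Top
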