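import Fermat.Agent.S41.Defs
import Fermat.Agent.S49.Hecke

/-!
# S41/TOP-VALS : the congruence ideal of a pair of cusp forms, in terms of period values

`ValsIn I ψ` : all values of `ψ : Γ₀(N) → ℂ` lie in the ideal `I` of `ℤ̄`.  It is stable under the
Hecke operators (transfer formula), hence `{t ∈ bigHecke N | ValsIn I (periodHomPair (t f, t g))}` is an ideal.
-/

set_option autoImplicit false

open UpperHalfPlane ModularForm ModularFormClass ModularCurve CongruenceSubgroup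
open ModularCurve.Period Fermat.Agent.S16.Lower Fermat.Agent.S29 Fermat.Agent.S29.HeckeXAux
open Fermat.Agent.S49
open scoped MatrixGroups

noncomputable section

namespace Fermat.Agent.S41.Top

variable {N : ℕ}

/-- all values lie in `I` -/
def ValsIn (I : Ideal (integralClosure ℤ ℂ)) (ψ : Additive (Gamma0 N) →+ ℂ) : Prop :=
  ∀ γ : Additive (Gamma0 N), ∃ c ∈ I, (c : ℂ) = ψ γ

theorem ValsIn.zero (I : Ideal (integralClosure ℤ ℂ)) :
    ValsIn I (0 : Additive (Gamma0 N) →+ ℂ) := fun _ => ⟨0, I.zero_mem, rfl⟩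

theorem ValsIn.add {I : Ideal (integralClosure ℤ ℂ)} {ψ ψ' : Additive (Gamma0 N) →+ ℂ}
    (h : ValsIn I ψ) (h' : ValsIn I ψ') : ValsIn I (ψ + ψ') := by
  intro γ
  obtain ⟨c, hc, hc'⟩ := h γ
  obtain ⟨d, hd, hd'⟩ := h' γ
  refine ⟨c + d, I.add_mem hc hd, ?_⟩
  rw [AddMonoidHom.add_apply, ← hc', ← hd']
  rfl

theorem ValsIn.smul {I : Ideal (integralClosure ℤ ℂ)} {ψ : Additive (Gamma0 N) →+ ℂ}
    (h : ValsIn I ψ) (r : integralClosure ℤ ℂ) : ValsIn I ((r : ℂ) • ψ) := by
  intro γ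
  obtain ⟨c, hc, hc'⟩ := h γ
  refine ⟨r * c, I.mul_mem_left r hc, ?_⟩
  show _ = (r : ℂ) * ψ γ
  rw [← hc']
  rfl

theorem ValsIn.sum {I : Ideal (integralClosure ℤ ℂ)} {ψ : Additive (Gamma0 N) →+ ℂ}
    (h : ValsIn I ψ) {ι : Type} (s : Finset ι) (δ : ι → Additive (Gamma0 N)) :
    ∃ c ∈ I, (c : ℂ) = ∑ i ∈ s, ψ (δ i) := by
  choose c hc hc' using h
  refine ⟨∑ i ∈ s, c (δ i), I.sum_mem fun i _ => hc _, ?_⟩
  rw [AddSubmonoidClass.coe_finsetSum]
  exact Finset.sum_congr rfl fun i _ => hc' _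

/-- the pair `(t f, t g)` -/
abbrev pp [NeZero N] (t : Module.End ℂ (CuspForm (Gamma0 N) 2)) (fg : CuspForm (Gamma0 N) 2 × CuspForm (Gamma0 N) 2) :
    Additive (Gamma0 N) →+ ℂ := periodHomPair N (t fg.1, t fg.2)

theorem ValsIn.of_mem_bigHecke [NeZero N] {I : Ideal (integralClosure ℤ ℂ)}
    {t : Module.End ℂ (CuspForm (Gamma0 N) 2)} (ht : t ∈ bigHecke N) :
    ∀ fg : CuspForm (Gamma0 N) 2 × CuspForm (Gamma0 N) 2, ValsIn I (periodHomPair N fg) →
      ValsIn I (pp t fg) := by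
  induction ht using Algebra.adjoin_induction with
  | mem x hx =>
    intro fg hfg γ
    rcases hx with ⟨ℓ, hℓ, hℓN, -, rfl⟩ | ⟨q, hqN, hq, -, rfl⟩
    · have h1 := periodHomPair_heckeTLin hℓ hℓN fg.1 fg.2 (Additive.toMul γ) (hd hℓ hℓN _)
      obtain ⟨c, hc, hc'⟩ := hfg.sum Finset.univ
        (fun i => Additive.ofMul ((hd hℓ hℓN (Additive.toMul γ)).δ i))
      exact ⟨c, hc, hc'.trans h1.symm⟩
    · have h1 := periodHomPair_heckeULin hq hqN fg.1 fg.2 (Additive.toMul γ) (hdU hq hqN _)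
      obtain ⟨c, hc, hc'⟩ := hfg.sum Finset.univ
        (fun i => Additive.ofMul ((hdU hq hqN (Additive.toMul γ)).δ i))
      exact ⟨c, hc, hc'.trans h1.symm⟩
  | algebraMap r =>
    intro fg hfg
    have : pp (algebraMap (integralClosure ℤ ℂ) (Module.End ℂ (CuspForm (Gamma0 N) 2)) r) fg =
        (r : ℂ) • periodHomPair N fg := by
      rw [← map_smul]
      rfl
    rw [this]
    exact hfg.smul r
  | add x y _ _ hx hy =>
    intro fg hfg
    have : pp (x + y) fg = pp x fg + pp y fg := by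
      show periodHomPair N (x fg.1 + y fg.1, x fg.2 + y fg.2) = _
      rw [← map_add]
      rfl
    rw [this]
    exact (hx fg hfg).add (hy fg hfg)
  | mul x y _ _ hx hy =>
    intro fg hfg
    exact hx (y fg.1, y fg.2) (hy fg hfg)

/-- the ideal of operators sending `(f, g)` to a pair with period values in `I` -/
def valsIdeal [NeZero N] (I : Ideal (integralClosure ℤ ℂ))
    (fg : CuspForm (Gamma0 N) 2 × CuspForm (Gamma0 N) 2) : Ideal (bigHecke N) where
  carrier := {t | ValsIn I (pp (t : Module.End ℂ (CuspForm (Gamma0 N) 2)) fg)}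
  add_mem' := by
    intro a b ha hb
    have : pp ((a + b : bigHecke N) : Module.End ℂ (CuspForm (Gamma0 N) 2)) fg =
        pp (a : Module.End ℂ (CuspForm (Gamma0 N) 2)) fg +
          pp (b : Module.End ℂ (CuspForm (Gamma0 N) 2)) fg := by
      show periodHomPair N (_ + _, _ + _) = _
      rw [← map_add]
      rfl
    show ValsIn I _
    rw [this]
    exact ValsIn.add ha hb
  zero_mem' := by
    have : pp ((0 : bigHecke N) : Module.End ℂ (CuspForm (Gamma0 N) 2)) fg = 0 :=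
      map_zero (periodHomPair N)
    show ValsIn I _
    rw [this]
    exact ValsIn.zero I
  smul_mem' := by
    intro c x hx
    exact ValsIn.of_mem_bigHecke c.2 (_, _) hx

theorem mem_valsIdeal [NeZero N] {I : Ideal (integralClosure ℤ ℂ)}
    {fg : CuspForm (Gamma0 N) 2 × CuspForm (Gamma0 N) 2} {t : bigHecke N} :
    t ∈ valsIdeal I fg ↔ ValsIn I (pp (t : Module.End ℂ (CuspForm (Gamma0 N) 2)) fg) :=
  Iff.rfl

end Fermat.Agent.S41.Top
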